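import Fermat.Agent.S56.H246.Near
import Fermat.Agent.S56.H656.LocOrdP
import Fermat.Agent.S56.H906.FlatOSpec

/-!
# S56 / FLAT-O, ASM-STRUCT (helper246), part 2 (= S1): the inertia augmentation of `ρ̄` is a line

`ρ̄ : G_ℚ → GL₂(k)` with cyclotomic determinant, flat at `p` (a Hopf lattice on `V`), `p` odd,
`P | p`, and `ρ̄|_{D_P}` reducible (a `D_P`-stable line `U`).  Then the inertia augmentation
`aug P ρ̄ = ⟨τ v - v : τ ∈ I_P⟩` is a LINE `k x₀` (`exists_aug_line`).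

Inputs: the leaves (TAMEFROB), (FT), (FI) of `H906/FlatOSpec.lean`:
the character `χ₁` of `D_P` on `U` has values in `𝔽_p` on inertia (TAMEFROB), so it is trivial or
cyclotomic on inertia (FT).  If it is cyclotomic, inertia is trivial on `V/U` (determinant) and
`aug = U`.  If it is trivial, `aug` contains the line `(τ₀ - 1) V` (`τ₀` moving `μ_p`) and cannot
be bigger: otherwise `U ⊂ V^I ∩ aug = 0` (FI).

Nothing unproved in this file.
-/

set_option autoImplicit false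
set_option linter.unusedSectionVars false

noncomputable section

namespace Fermat.Agent.S56.H246

open Fermat.Agent.S56 Fermat.Agent.S56.H906 Fermat.Agent.S56.H656

section LinAlg

variable {k : Type} [Field k] {V : Type} [AddCommGroup V] [Module k V]
  (B : Module.Basis (Fin 2) k V)

/-- Determinant of an upper triangular endomorphism of a plane. -/
theorem det_of_triangular (f : Module.End k V) (h : B.coord 1 (f (B 0)) = 0) :
    LinearMap.det f = B.coord 0 (f (B 0)) * B.coord 1 (f (B 1)) := by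
  rw [← LinearMap.det_toMatrix B f, Matrix.det_fin_two]
  simp only [LinearMap.toMatrix_apply]
  have h' : B.repr (f (B 0)) 1 = 0 := h
  rw [h', mul_zero, sub_zero]
  rfl

/-- In a plane, an element with vanishing second coordinate is a multiple of `B 0`. -/
theorem eq_smul_of_coord_one_eq_zero {v : V} (h : B.coord 1 v = 0) :
    v = B.coord 0 v • B 0 := by
  conv_lhs => rw [H656.expand B v]
  rw [h, zero_smul, add_zero]

/-- A proper subspace of a plane containing `B 0` is contained in `k · B 0`. -/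
theorem coord_one_eq_zero_of_mem (U : Submodule k V) (hU1 : U ≠ ⊤) (h0 : B 0 ∈ U) {x : V}
    (hx : x ∈ U) : B.coord 1 x = 0 := by
  by_contra hne
  apply hU1
  rw [eq_top_iff, ← B.span_eq, Submodule.span_le]
  rintro _ ⟨i, rfl⟩
  fin_cases i
  · exact h0
  · have h2 : x - B.coord 0 x • B 0 = B.coord 1 x • B 1 :=
      sub_eq_of_eq_add' (H656.expand B x)
    have h1 : B 1 = (B.coord 1 x)⁻¹ • (x - B.coord 0 x • B 0) := by
      rw [h2, smul_smul, inv_mul_cancel₀ hne, one_smul]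
    show B 1 ∈ U
    rw [h1]
    exact U.smul_mem _ (U.sub_mem hx (U.smul_mem _ h0))

/-- `f v - v` in coordinates. -/
theorem apply_sub_expand (f : Module.End k V) (v : V) : f v - v =
    (B.coord 0 v * (B.coord 0 (f (B 0)) - 1) + B.coord 1 v * B.coord 0 (f (B 1))) • B 0 +
      (B.coord 0 v * B.coord 1 (f (B 0)) +
        B.coord 1 v * (B.coord 1 (f (B 1)) - 1)) • B 1 := by
  obtain ⟨v0, v1, rfl⟩ : ∃ v0 v1 : k, v = v0 • B 0 + v1 • B 1 := ⟨_, _, H656.expand B v⟩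
  obtain ⟨c00, c10, h0⟩ : ∃ c00 c10 : k, f (B 0) = c00 • B 0 + c10 • B 1 :=
    ⟨_, _, H656.expand B _⟩
  obtain ⟨c01, c11, h1⟩ : ∃ c01 c11 : k, f (B 1) = c01 • B 0 + c11 • B 1 :=
    ⟨_, _, H656.expand B _⟩
  simp only [map_add, map_smul, h0, h1, H656.coord0_self, H656.coord1_self,
    H656.coord1_self0, H656.coord0_self1, smul_eq_mul, mul_one, mul_zero, add_zero, zero_add]
  module

end LinAlg

section Char

variable {p : ℕ} [Fact p.Prime] {k : Type} [Field k] [CharP k p]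

/-- An element of a field of characteristic `p` fixed by Frobenius is a natural number. -/
theorem exists_natCast_eq_of_pow_eq_self {x : k} (hx : x ^ p = x) : ∃ n : ℕ, x = (n : k) := by
  have h1 : x ∈ (⊥ : Subfield k) := (Subfield.mem_bot_iff_pow_eq_self k p).mpr hx
  rw [← ZMod.fieldRange_castHom_eq_bot (K := k) p] at h1
  obtain ⟨z, rfl⟩ := h1
  refine ⟨z.val, ?_⟩
  rw [← map_natCast (ZMod.castHom (dvd_refl p) k), ZMod.natCast_zmod_val]

end Char

section Line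

variable {p : ℕ} [Fact p.Prime] {k : Type} [Field k] [Finite k] [CharP k p]
  (ρbar : ResidualGaloisRep k) (P : ValuationSubring Qb)

/-- The inertia augmentation of `ρ̄` is stable under scalars. -/
theorem smul_mem_aug (t : k) {w : ρbar.V} (hw : w ∈ aug P (fun σ v => ρbar.ρ σ v)) :
    t • w ∈ aug P (fun σ v => ρbar.ρ σ v) := by
  unfold aug at hw ⊢
  induction hw using AddSubgroup.closure_induction with
  | mem z hz =>
    obtain ⟨σ, hσ, y, rfl⟩ := hz
    refine AddSubgroup.subset_closure ⟨σ, hσ, t • y, ?_⟩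
    show t • (ρbar.ρ σ y - y) = ρbar.ρ σ (t • y) - t • y
    rw [smul_sub, map_smul]
  | zero => rw [smul_zero]; exact zero_mem _
  | add x y _ _ hx hy => rw [smul_add]; exact add_mem hx hy
  | neg x _ hx => rw [smul_neg]; exact neg_mem hx

instance finite_V : Finite ρbar.V := Module.finite_of_finite k

theorem nsmul_p_eq_zero (x : ρbar.V) : p • x = 0 := by
  rw [← Nat.cast_smul_eq_nsmul k p x, CharP.cast_eq_zero k p, zero_smul]

/-- **S1.**  The inertia augmentation of a flat, locally reducible `ρ̄` with cyclotomic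
determinant is a line. -/
theorem exists_aug_line (hFI : FlatInertiaStatement) (hFT : FlatTameStatement)
    (hTF : TameFrobStatement) (hp2 : p ≠ 2) (hP : P.LiesOverPrime p)
    (hdet : ∀ (σ : GQ) (a : ℕ), IsCycExp p σ a → LinearMap.det (ρbar.ρ σ) = (a : k))
    {Λ : Subalgebra (Zp p) (ρbar.V → Qb)} (hΛ : IsHL p (fun σ v => ρbar.ρ σ v) Λ)
    (U : Submodule k ρbar.V) (hU0 : U ≠ ⊥) (hU1 : U ≠ ⊤)
    (hUD : ∀ σ ∈ P.decompositionSubgroup ℚ, ∀ x ∈ U, ρbar.ρ σ x ∈ U) :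
    ∃ x₀ : ρbar.V, x₀ ≠ 0 ∧ x₀ ∈ aug P (fun σ v => ρbar.ρ σ v) ∧
      ∀ w ∈ aug P (fun σ v => ρbar.ρ σ v), ∃ t : k, w = t • x₀ := by
  have hp : p.Prime := Fact.out
  obtain ⟨u₀, hu₀U, hu₀⟩ := Submodule.exists_mem_ne_zero_of_ne_bot hU0
  obtain ⟨B, hB⟩ := H656.exists_basis_zero_eq ρbar.finrank_eq hu₀
  have hB0U : B 0 ∈ U := hB ▸ hu₀U
  -- the character on `U`
  set χ : GQ → k := fun σ => B.coord 0 (ρbar.ρ σ (B 0)) with hχ
  have hD : ∀ σ ∈ P.decompositionSubgroup ℚ, B.coord 1 (ρbar.ρ σ (B 0)) = 0 := fun σ hσ =>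
    coord_one_eq_zero_of_mem B U hU1 hB0U (hUD σ hσ _ hB0U)
  have hDχ : ∀ σ ∈ P.decompositionSubgroup ℚ, ρbar.ρ σ (B 0) = χ σ • B 0 := fun σ hσ =>
    eq_smul_of_coord_one_eq_zero B (hD σ hσ)
  have hχloc : IsLocChar P χ := by
    refine ⟨?_, ?_, ?_⟩
    · show B.coord 0 (ρbar.ρ 1 (B 0)) = 1
      rw [map_one, Module.End.one_apply]
      exact H656.coord0_self B
    · intro σ hσ τ hτ
      show B.coord 0 (ρbar.ρ (σ * τ) (B 0)) = χ σ * χ τ
      rw [map_mul, Module.End.mul_apply, hDχ τ hτ, map_smul, hDχ σ hσ, smul_smul, map_smul,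
        H656.coord0_self B, smul_eq_mul, mul_one, mul_comm]
    · obtain ⟨L, hL, h1⟩ := ρbar.factorsThroughFiniteLevel
      refine ⟨L, hL, fun σ _ τ _ hτ => ?_⟩
      show B.coord 0 (ρbar.ρ (σ * τ) (B 0)) = B.coord 0 (ρbar.ρ σ (B 0))
      rw [map_mul, h1 τ hτ, mul_one]
  -- on inertia the character has values in `𝔽_p`
  have hIn : ∀ τ ∈ P.inertiaSubgroupIn ℚ, ∃ n : ℕ, ρbar.ρ τ (B 0) = n • B 0 := by
    intro τ hτ
    obtain ⟨n, hn⟩ := exists_natCast_eq_of_pow_eq_self (p := p) (hTF p k P hP χ hχloc τ hτ)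
    refine ⟨n, ?_⟩
    rw [hDχ τ (H656.mem_decomposition_of_mem_inertia hτ), hn, Nat.cast_smul_eq_nsmul]
  have hB0 : B 0 ≠ 0 := B.ne_zero 0
  -- an element of inertia moving `μ_p`
  obtain ⟨τ₀, hτ₀, a₀, ha₀, ha₀1⟩ := H656.exists_inertia_isCycExp_ne_one hp hp2 k P hP
  have hτ₀D := H656.mem_decomposition_of_mem_inertia hτ₀
  have ha₀sub : (a₀ : k) - 1 ≠ 0 := sub_ne_zero.mpr ha₀1
  -- determinant relation
  have hdetI : ∀ τ ∈ P.inertiaSubgroupIn ℚ, ∀ a : ℕ, IsCycExp p τ a →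
      χ τ * B.coord 1 (ρbar.ρ τ (B 1)) = (a : k) := by
    intro τ hτ a ha
    rw [← hdet τ a ha, det_of_triangular B _ (hD τ (H656.mem_decomposition_of_mem_inertia hτ))]
  have hexpand : ∀ (τ : GQ) (v : ρbar.V), ρbar.ρ τ v - v =
      (B.coord 0 v * (χ τ - 1) + B.coord 1 v * B.coord 0 (ρbar.ρ τ (B 1))) • B 0 +
        (B.coord 0 v * B.coord 1 (ρbar.ρ τ (B 0)) +
          B.coord 1 v * (B.coord 1 (ρbar.ρ τ (B 1)) - 1)) • B 1 := by
    intro τ v
    exact apply_sub_expand B (ρbar.ρ τ) v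
  rcases hFT p hp2 ρbar.V (fun σ v => ρbar.ρ σ v) Λ hΛ (nsmul_p_eq_zero ρbar) P hP (B 0) hB0 hIn
    with hA | hB'
  · -- inertia is trivial on `U`
    have hχ1 : ∀ τ ∈ P.inertiaSubgroupIn ℚ, χ τ = 1 := by
      intro τ hτ
      have h1 := hDχ τ (H656.mem_decomposition_of_mem_inertia hτ)
      have h2 : ρbar.ρ τ (B 0) = B 0 := hA τ hτ
      rw [h2] at h1
      have h3 : (1 : k) • B 0 = χ τ • B 0 := by rw [one_smul]; exact h1
      exact (H656.smul_basis0_inj B h3).symm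
    set x₀ : ρbar.V := ρbar.ρ τ₀ (B 1) - B 1 with hx₀
    have hd₀ : B.coord 1 (ρbar.ρ τ₀ (B 1)) = (a₀ : k) := by
      have := hdetI τ₀ hτ₀ a₀ ha₀
      rwa [hχ1 τ₀ hτ₀, one_mul] at this
    have hx₀1 : B.coord 1 x₀ = (a₀ : k) - 1 := by
      rw [hx₀, map_sub, hd₀, H656.coord1_self B]
    have hx₀mem : x₀ ∈ aug P (fun σ v => ρbar.ρ σ v) := act_sub_mem_aug P _ hτ₀ (B 1)
    refine ⟨x₀, ?_, hx₀mem, ?_⟩
    · intro h0
      rw [h0, map_zero] at hx₀1
      exact ha₀sub hx₀1.symm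
    · intro w hw
      set t : k := B.coord 1 w * ((a₀ : k) - 1)⁻¹ with ht
      refine ⟨t, ?_⟩
      have hmem : w - t • x₀ ∈ aug P (fun σ v => ρbar.ρ σ v) :=
        sub_mem hw (smul_mem_aug ρbar P t hx₀mem)
      have hc1 : B.coord 1 (w - t • x₀) = 0 := by
        rw [map_sub, map_smul, hx₀1, ht, smul_eq_mul, mul_assoc, inv_mul_cancel₀ ha₀sub, mul_one,
          sub_self]
      obtain ⟨r, hr⟩ : ∃ r : k, w - t • x₀ = r • B 0 :=
        ⟨_, eq_smul_of_coord_one_eq_zero B hc1⟩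
      by_cases hr0 : r = 0
      · rw [hr0, zero_smul, sub_eq_zero] at hr
        exact hr
      · exfalso
        have hB0mem : B 0 ∈ aug P (fun σ v => ρbar.ρ σ v) := by
          have : B 0 = r⁻¹ • (w - t • x₀) := by
            rw [hr, smul_smul, inv_mul_cancel₀ hr0, one_smul]
          rw [this]
          exact smul_mem_aug ρbar P _ hmem
        exact hB0 (hFI p hp2 ρbar.V (fun σ v => ρbar.ρ σ v) Λ hΛ (nsmul_p_eq_zero ρbar) P hP
          (B 0) hA hB0mem)
  · -- inertia acts on `U` through the cyclotomic character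
    have hχa : ∀ τ ∈ P.inertiaSubgroupIn ℚ, ∀ a : ℕ, IsCycExp p τ a → χ τ = (a : k) := by
      intro τ hτ a ha
      have h1 := hDχ τ (H656.mem_decomposition_of_mem_inertia hτ)
      have h2 : ρbar.ρ τ (B 0) = a • B 0 := hB' τ hτ a ha
      rw [h2, ← Nat.cast_smul_eq_nsmul k] at h1
      exact (H656.smul_basis0_inj B h1).symm
    have hd1 : ∀ τ ∈ P.inertiaSubgroupIn ℚ, B.coord 1 (ρbar.ρ τ (B 1)) = 1 := by
      intro τ hτ
      obtain ⟨a, ha⟩ := Fermat.Agent.S56.H966.exists_isCycExp p hp.ne_zero τ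
      have h1 := hdetI τ hτ a ha
      rw [hχa τ hτ a ha] at h1
      have ha0 : (a : k) ≠ 0 := H656.isCycExp_cast_ne_zero hp ha
      exact mul_left_cancel₀ ha0 (by rw [h1, mul_one])
    have hB0mem : B 0 ∈ aug P (fun σ v => ρbar.ρ σ v) := by
      have h1 : B 0 = ρbar.ρ τ₀ (((a₀ : k) - 1)⁻¹ • B 0) - ((a₀ : k) - 1)⁻¹ • B 0 := by
        rw [map_smul, hDχ τ₀ hτ₀D, hχa τ₀ hτ₀ a₀ ha₀, ← smul_sub]
        have h2 : (a₀ : k) • B 0 - B 0 = ((a₀ : k) - 1) • B 0 := by rw [sub_smul, one_smul]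
        rw [h2, smul_smul, inv_mul_cancel₀ ha₀sub, one_smul]
      rw [h1]
      exact act_sub_mem_aug P _ hτ₀ _
    refine ⟨B 0, hB0, hB0mem, ?_⟩
    intro w hw
    unfold aug at hw
    induction hw using AddSubgroup.closure_induction with
    | mem z hz =>
      obtain ⟨τ, hτ, y, rfl⟩ := hz
      refine ⟨B.coord 0 y * (χ τ - 1) + B.coord 1 y * B.coord 0 (ρbar.ρ τ (B 1)), ?_⟩
      show ρbar.ρ τ y - y = _
      rw [hexpand τ y, hD τ (H656.mem_decomposition_of_mem_inertia hτ), hd1 τ hτ, sub_self,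
        mul_zero, mul_zero, add_zero, zero_smul, add_zero]
    | zero => exact ⟨0, (zero_smul _ _).symm⟩
    | add x y _ _ hx hy =>
      obtain ⟨s, rfl⟩ := hx
      obtain ⟨t, rfl⟩ := hy
      exact ⟨s + t, (add_smul _ _ _).symm⟩
    | neg x _ hx =>
      obtain ⟨s, rfl⟩ := hx
      exact ⟨-s, (neg_smul _ _).symm⟩

end Line

end Fermat.Agent.S56.H246

end
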