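import Fermat.Agent.S56.H906.LemmaA
import Fermat.Agent.S19.H435.Sub
import Fermat.Agent.A2.H708.Tame

/-!
# S56 / FLAT-O, ASM-STRUCT (helper246), part 1: the kernel of reduction of a Hopf lattice

`(M, act, Λ)` a Hopf lattice (`Fermat.Agent.S19.H435.IsHopfLattice`), `P | p`.

* `IsNear P Λ x` : `v (f x - f 0) < 1` for all `f ∈ Λ` ("`x` reduces to `0`").
* `isNear_zero`, `IsNear.add`, `IsNear.neg` : the kernel of reduction is a subgroup.
* `isNear_act_sub` : `σ y - y` is in the kernel of reduction for `σ` in the inertia group.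
* `isNear_of_mem_aug` (CE'): the inertia augmentation `aug P act` is contained in the kernel of
  reduction.
* `CEStatement` (CE, leaf owned by helper6): the converse, for `M` killed by `p`, `p` odd.
* `aug_map`, `aug_lift`, `aug_ker` : behaviour of the augmentation in an equivariant exact
  sequence `0 → V → X → V' → 0` (the last one uses CE on the sub-object and CE' on `X`).

Nothing unproved in this file.
-/

set_option autoImplicit false
set_option linter.unusedSectionVars false

noncomputable section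

namespace Fermat.Agent.S56.H246

open Fermat.Agent.S56 Fermat.Agent.S56.H906

/-- The inertia augmentation of a `G_ℚ`-set-with-addition: the subgroup generated by the
`σ y - y`, `σ ∈ I_P`. -/
def aug (P : ValuationSubring Qb) {M : Type} [AddCommGroup M] (act : GQ → M → M) :
    AddSubgroup M :=
  AddSubgroup.closure {z : M | ∃ σ ∈ P.inertiaSubgroupIn ℚ, ∃ y : M, z = act σ y - y}

theorem act_sub_mem_aug (P : ValuationSubring Qb) {M : Type} [AddCommGroup M]
    (act : GQ → M → M) {σ : GQ} (hσ : σ ∈ P.inertiaSubgroupIn ℚ) (y : M) :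
    act σ y - y ∈ aug P act :=
  AddSubgroup.subset_closure ⟨σ, hσ, y, rfl⟩

/-- (CE) "kernel of reduction = inertia augmentation" for a flat module killed by `p`, `p` odd
(leaf of helper6; the shape is the one of `H906.FlatInertiaStatement`). -/
def CEStatement : Prop :=
  ∀ (p : ℕ) [Fact p.Prime], p ≠ 2 →
    ∀ (M : Type) [AddCommGroup M] [Finite M] (act : GQ → M → M)
    (Λ : Subalgebra (Zp p) (M → Qb)), IsHL p act Λ → (∀ x : M, p • x = 0) →
    ∀ P : ValuationSubring Qb, P.LiesOverPrime p → ∀ x : M,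
      (∀ f ∈ Λ, P.valuation (f x - f 0) < 1) →
      x ∈ AddSubgroup.closure
        {z : M | ∃ σ ∈ P.inertiaSubgroupIn ℚ, ∃ y : M, z = act σ y - y}

section Near

variable {p : ℕ} [Fact p.Prime] {M : Type} [AddCommGroup M] {act : GQ → M → M}
  {Λ : Subalgebra (Zp p) (M → Qb)} (P : ValuationSubring Qb)

/-- `x` lies in the kernel of reduction. -/
def IsNear (Λ : Subalgebra (Zp p) (M → Qb)) (x : M) : Prop :=
  ∀ f ∈ Λ, P.valuation (f x - f 0) < 1

theorem isNear_zero : IsNear P Λ 0 := fun f _ => by
  rw [sub_self, map_zero]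
  exact zero_lt_one

/-- The basic estimate: a sum `∑ (u k - u' k) * w k` with `v (u k - u' k) < 1`, `w k ∈ P`. -/
theorem valuation_sum_mul_lt_one {n : ℕ} (d w : Fin n → Qb)
    (hd : ∀ k, P.valuation (d k) < 1) (hw : ∀ k, w k ∈ P) :
    P.valuation (∑ k, d k * w k) < 1 := by
  refine Valuation.map_sum_lt _ one_ne_zero fun k _ => ?_
  rw [map_mul]
  have h1 : P.valuation (w k) ≤ 1 := (P.valuation_le_one_iff _).mpr (hw k)
  calc P.valuation (d k) * P.valuation (w k) ≤ P.valuation (d k) * 1 :=
        mul_le_mul_right h1 _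
    _ = P.valuation (d k) := mul_one _
    _ < 1 := hd k

theorem IsNear.add (hΛ : IsHL p act Λ) (hP : P.LiesOverPrime p) {x y : M}
    (hx : IsNear P Λ x) (hy : IsNear P Λ y) : IsNear P Λ (x + y) := by
  intro f hf
  obtain ⟨n, a, b, ha, hb, hab⟩ := hΛ.comul_mem f hf
  have h1 : f (x + y) - f 0 = (∑ k, (a k x - a k 0) * b k y) + (f y - f 0) := by
    have e1 := hab x y
    have e2 := hab 0 y
    rw [zero_add] at e2
    rw [e1]
    conv_rhs => rw [e2]
    simp only [sub_mul, Finset.sum_sub_distrib]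
    ring
  rw [h1]
  refine lt_of_le_of_lt (Valuation.map_add _ _ _) (max_lt ?_ (hy f hf))
  exact valuation_sum_mul_lt_one P _ _ (fun k => hx _ (ha k))
    (fun k => apply_mem P hΛ hP (hb k) y)

theorem IsNear.neg (hΛ : IsHL p act Λ) (hP : P.LiesOverPrime p) {x : M}
    (hx : IsNear P Λ x) : IsNear P Λ (-x) := by
  intro f hf
  obtain ⟨n, a, b, ha, hb, hab⟩ := hΛ.comul_mem f hf
  have h1 : f (-x) - f 0 = -∑ k, (a k x - a k 0) * b k (-x) := by
    have e1 := hab x (-x)
    have e2 := hab 0 (-x)
    rw [zero_add] at e2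
    rw [add_neg_cancel] at e1
    rw [e1, e2, ← Finset.sum_sub_distrib, ← Finset.sum_neg_distrib]
    refine Finset.sum_congr rfl fun k _ => ?_
    ring
  rw [h1, Valuation.map_neg]
  exact valuation_sum_mul_lt_one P _ _ (fun k => hx _ (ha k))
    (fun k => apply_mem P hΛ hP (hb k) (-x))

/-- `σ y - y` reduces to `0` for `σ` in the inertia group. -/
theorem isNear_act_sub (hΛ : IsHL p act Λ) (hP : P.LiesOverPrime p) {σ : GQ}
    (hσ : σ ∈ P.inertiaSubgroupIn ℚ) (y : M) : IsNear P Λ (act σ y - y) := by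
  intro f hf
  obtain ⟨n, a, b, ha, hb, hab⟩ := hΛ.comul_mem f hf
  have h1 : f (act σ y - y) - f 0 = ∑ k, (σ (a k y) - a k y) * b k (-y) := by
    have e1 := hab (act σ y) (-y)
    have e2 := hab y (-y)
    rw [add_neg_cancel] at e2
    rw [← sub_eq_add_neg] at e1
    rw [e1, e2, ← Finset.sum_sub_distrib]
    refine Finset.sum_congr rfl fun k _ => ?_
    rw [hΛ.equivariant _ (ha k) σ y]
    ring
  rw [h1]
  refine valuation_sum_mul_lt_one P _ _ (fun k => ?_) (fun k => apply_mem P hΛ hP (hb k) (-y))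
  exact Fermat.Agent.A2.H708.valuation_sub_lt_one_of_mem_inertiaIn P hσ
    ((P.valuation_le_one_iff _).mpr (apply_mem P hΛ hP (ha k) y))

/-- (CE') the inertia augmentation lies in the kernel of reduction. -/
theorem isNear_of_mem_aug (hΛ : IsHL p act Λ) (hP : P.LiesOverPrime p) {x : M}
    (hx : x ∈ aug P act) : IsNear P Λ x := by
  unfold aug at hx
  induction hx using AddSubgroup.closure_induction with
  | mem z hz =>
    obtain ⟨σ, hσ, y, rfl⟩ := hz
    exact isNear_act_sub P hΛ hP hσ y
  | zero => exact isNear_zero P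
  | add x y _ _ hx hy => exact hx.add P hΛ hP hy
  | neg x _ hx => exact hx.neg P hΛ hP

end Near

section Exact

variable {p : ℕ} [Fact p.Prime] (P : ValuationSubring Qb)
  {X V V' : Type} [AddCommGroup X] [AddCommGroup V] [AddCommGroup V']
  {actX : GQ → X → X} {actV : GQ → V → V} {actV' : GQ → V' → V'}

/-- The augmentation maps into the augmentation under an equivariant additive map. -/
theorem aug_map (π : X →+ V') (hπ : ∀ σ x, π (actX σ x) = actV' σ (π x)) {x : X}
    (hx : x ∈ aug P actX) : π x ∈ aug P actV' := by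
  unfold aug at hx
  induction hx using AddSubgroup.closure_induction with
  | mem z hz =>
    obtain ⟨σ, hσ, y, rfl⟩ := hz
    rw [map_sub, hπ]
    exact act_sub_mem_aug P actV' hσ (π y)
  | zero => rw [map_zero]; exact zero_mem _
  | add x y _ _ hx hy => rw [map_add]; exact add_mem hx hy
  | neg x _ hx => rw [map_neg]; exact neg_mem hx

/-- The augmentation lifts along a surjective equivariant additive map. -/
theorem aug_lift (π : X →+ V') (hπ : ∀ σ x, π (actX σ x) = actV' σ (π x))
    (hsurj : Function.Surjective π) {w : V'} (hw : w ∈ aug P actV') :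
    ∃ x ∈ aug P actX, π x = w := by
  unfold aug at hw
  induction hw using AddSubgroup.closure_induction with
  | mem z hz =>
    obtain ⟨σ, hσ, y, rfl⟩ := hz
    obtain ⟨x, rfl⟩ := hsurj y
    exact ⟨actX σ x - x, act_sub_mem_aug P actX hσ x, by rw [map_sub, hπ]⟩
  | zero => exact ⟨0, zero_mem _, map_zero _⟩
  | add x y _ _ hx hy =>
    obtain ⟨x', hx', rfl⟩ := hx
    obtain ⟨y', hy', rfl⟩ := hy
    exact ⟨x' + y', add_mem hx' hy', map_add _ _ _⟩
  | neg x _ hx =>
    obtain ⟨x', hx', rfl⟩ := hx
    exact ⟨-x', neg_mem hx', map_neg _ _⟩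

/-- **Key step of ASM-STRUCT.**  In an equivariant left exact sequence `0 → V → X` of flat
modules, with `V` killed by `p` (`p` odd): `aug X ∩ V = aug V`.
(`aug X ⊂ ker(red)` by CE', `ker(red) ∩ V = ker(red_V)` for the pulled back lattice, and
`ker(red_V) = aug V` by CE.) -/
theorem aug_ker (hCE : CEStatement) (hp2 : p ≠ 2) [Finite V]
    {Λ : Subalgebra (Zp p) (X → Qb)} (hΛ : IsHL p actX Λ) (hP : P.LiesOverPrime p)
    (hpV : ∀ w : V, p • w = 0)
    (ι : V →+ X) (hι : Function.Injective ι) (hιact : ∀ σ w, ι (actV σ w) = actX σ (ι w))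
    {w : V} (hw : ι w ∈ aug P actX) : w ∈ aug P actV := by
  have hΛV := Fermat.Agent.S19.H435.IsHopfLattice.pullback hΛ ι hι actV hιact
  refine hCE p hp2 V actV _ hΛV hpV P hP w ?_
  rintro _ ⟨f, hf, rfl⟩
  have := isNear_of_mem_aug P hΛ hP hw f hf
  simpa [Fermat.Agent.S19.H435.precompAlgHom_apply] using this

end Exact

end Fermat.Agent.S56.H246

end
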