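import Fermat.Agent.S56.H246.Line
import Fermat.Agent.S19.H435.FlatGlue
import Fermat.Agent.S56.H794.TameFrob
import Fermat.Agent.S56.H906.FlatOTop
import Fermat.Agent.S56.H906.FI
import Fermat.Agent.S56.H486.FlatTame
import Fermat.Agent.S56.H486.FlatOLoc
import Fermat.Agent.S56.H656.FlatUnit
import Fermat.Agent.S56.FO.H6.CEMain

/-!
# S56 / FLAT-O, piece STRUCT (helper246): `struct : H906.StructStatement`

The frozen piece `StructStatement` of `S56/H906/FlatOTop.lean` (structure of the flat lifts to the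
dual numbers when `ρ̄|_{D_P}` is reducible), UNCONDITIONALLY: all leaves are on main
(FI `H906.flatInertia`, FT `H486.flatTame`, FU `H656.flatUnit`, TAMEFROB `H486.tameFrob`,
CE `FO.H6.connEt`).

`X = ρ'.V` with coordinates `pr0, pr1 : X → V` (through `e : X ≃ k[ε] ⊗ V`), lattice from
`IsFlatAt` at the zero ideal (`exists_lattice_of_isFlatAt`), pulled back to `εX ≅ V` (`in1`).
* S1 (`Line.lean`): `aug V = k ℓ₀`.
* S2 (`aug_coord`): every `n ∈ aug X` has coordinates `(α ℓ₀, α ℓ₁ + β ℓ₀)`, where `(ℓ₀, ℓ₁)` are the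
  coordinates of a fixed `n₀ ∈ aug X` (CE' on `X`, CE on `εX`).
* S3: `m ℓ₀ = ℓ₁`, `c' = c + ∂m` is in normal form; peu ramifié by (FU) with `L = aug X`.

Nothing unproved in this file.
-/

set_option autoImplicit false
set_option linter.unusedSectionVars false
set_option linter.style.haveILetI false
noncomputable section
namespace Fermat.Agent.S56.H246
open Fermat.Agent.S56 Fermat.Agent.S56.H906 Fermat.Agent.S56.H656 Fermat.Agent.S56.H716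
open scoped TensorProduct

section Bridge

variable {k : Type} [Field k] [Finite k] {p : ℕ}

instance finite_dualNumber : Finite (DualNumber k) :=
  inferInstanceAs (Finite (k × k))

theorem finite_dualNumber_quot (I : Ideal (DualNumber k)) : Finite (DualNumber k ⧸ I) :=
  Finite.of_surjective (Ideal.Quotient.mk I) Ideal.Quotient.mk_surjective

theorem exists_lattice_of_isFlatAt (ρ' : GaloisRepAdic (DualNumber k)) (h : ρ'.IsFlatAt p) :
    ∃ Λ : Subalgebra (Zp p) (ρ'.V → Qb), IsHL p (fun σ x => ρ'.ρ σ x) Λ := by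
  have hM := ((Fermat.Agent.S19.H435.isFlatAt_iff_hopfModel ρ' p).mp h).2 ⊥ (finite_dualNumber_quot ⊥)
  obtain ⟨Λ, hΛ⟩ := Fermat.Agent.S19.H435.exists_isHopfLattice_of_hopfModel hM
  let ι : ρ'.V →+ ρ'.V ⧸ ((⊥ : Ideal (DualNumber k)) • (⊤ : Submodule (DualNumber k) ρ'.V)) :=
    (Submodule.mkQ _).toAddMonoidHom
  have hι : Function.Injective ι := by
    intro x y hxy
    have h1 : x - y ∈ (⊥ : Ideal (DualNumber k)) • (⊤ : Submodule (DualNumber k) ρ'.V) :=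
      (Submodule.Quotient.eq _).mp hxy
    rw [Submodule.bot_smul, Submodule.mem_bot, sub_eq_zero] at h1
    exact h1
  exact ⟨_, Fermat.Agent.S19.H435.IsHopfLattice.pullback hΛ ι hι (fun σ x => ρ'.ρ σ x)
    (fun σ x => rfl)⟩

end Bridge

section Coord

variable {k : Type} [Field k] (ρbar : ResidualGaloisRep k)
  (c : GQ → Module.End k ρbar.V) (ρ' : GaloisRepAdic (DualNumber k))
  (e : ρ'.V ≃ₗ[DualNumber k] (DualNumber k ⊗[k] ρbar.V))

/-- The constant coordinate of a point of the lift. -/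
def pr0 : ρ'.V →+ ρbar.V where
  toFun x := dPi0 (e x)
  map_zero' := by rw [map_zero, map_zero]
  map_add' x y := by rw [map_add, map_add]

/-- The `ε`-coordinate of a point of the lift. -/
def pr1 : ρ'.V →+ ρbar.V where
  toFun x := dPi1 (e x)
  map_zero' := by rw [map_zero, map_zero]
  map_add' x y := by rw [map_add, map_add]

/-- The point with coordinates `(v, w)`. -/
def pt (v w : ρbar.V) : ρ'.V :=
  e.symm (dIota v + (DualNumber.eps : DualNumber k) • dIota w)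

@[simp] theorem pr0_apply (x : ρ'.V) : pr0 ρbar ρ' e x = dPi0 (e x) := rfl

@[simp] theorem pr1_apply (x : ρ'.V) : pr1 ρbar ρ' e x = dPi1 (e x) := rfl

theorem pr0_pt (v w : ρbar.V) : pr0 ρbar ρ' e (pt ρbar ρ' e v w) = v := by
  rw [pr0_apply, pt, LinearEquiv.apply_symm_apply, map_add, dPi0_dIota, dPi0_smul,
    DualNumber.fst_eps, zero_smul, add_zero]

theorem pr1_pt (v w : ρbar.V) : pr1 ρbar ρ' e (pt ρbar ρ' e v w) = w := by
  rw [pr1_apply, pt, LinearEquiv.apply_symm_apply, map_add, dPi1_dIota, dPi1_smul,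
    DualNumber.fst_eps, DualNumber.snd_eps, zero_smul, one_smul, dPi0_dIota, zero_add, zero_add]

theorem pt_ext {x y : ρ'.V} (h0 : pr0 ρbar ρ' e x = pr0 ρbar ρ' e y)
    (h1 : pr1 ρbar ρ' e x = pr1 ρbar ρ' e y) : x = y :=
  e.injective (coord_ext h0 h1)

theorem pt_pr (x : ρ'.V) : pt ρbar ρ' e (pr0 ρbar ρ' e x) (pr1 ρbar ρ' e x) = x :=
  pt_ext ρbar ρ' e (pr0_pt ρbar ρ' e _ _) (pr1_pt ρbar ρ' e _ _)

theorem pr0_smul (r : DualNumber k) (x : ρ'.V) :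
    pr0 ρbar ρ' e (r • x) = TrivSqZeroExt.fst r • pr0 ρbar ρ' e x := by
  rw [pr0_apply, map_smul, dPi0_smul, pr0_apply]

theorem pr1_smul (r : DualNumber k) (x : ρ'.V) :
    pr1 ρbar ρ' e (r • x) =
      TrivSqZeroExt.fst r • pr1 ρbar ρ' e x + TrivSqZeroExt.snd r • pr0 ρbar ρ' e x := by
  rw [pr1_apply, map_smul, dPi1_smul, pr1_apply, pr0_apply]

variable {c} in
theorem pr0_act (he : ∀ (σ : GQ) (v : ρ'.V), e (ρ'.ρ σ v) = liftEnd ρbar c σ (e v))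
    (σ : GQ) (x : ρ'.V) : pr0 ρbar ρ' e (ρ'.ρ σ x) = ρbar.ρ σ (pr0 ρbar ρ' e x) := by
  rw [pr0_apply, he, dPi0_liftEnd, pr0_apply]

variable {c} in
theorem pr1_act (he : ∀ (σ : GQ) (v : ρ'.V), e (ρ'.ρ σ v) = liftEnd ρbar c σ (e v))
    (σ : GQ) (x : ρ'.V) : pr1 ρbar ρ' e (ρ'.ρ σ x) =
      ρbar.ρ σ (pr1 ρbar ρ' e x) + c σ (ρbar.ρ σ (pr0 ρbar ρ' e x)) := by
  rw [pr1_apply, he, dPi1_liftEnd, pr1_apply, pr0_apply]

/-- The inclusion of `εX ≅ V`. -/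
def in1 : ρbar.V →+ ρ'.V where
  toFun w := pt ρbar ρ' e 0 w
  map_zero' := pt_ext ρbar ρ' e (by rw [pr0_pt, map_zero]) (by rw [pr1_pt, map_zero])
  map_add' v w := pt_ext ρbar ρ' e (by rw [map_add, pr0_pt, pr0_pt, pr0_pt, add_zero])
    (by rw [map_add, pr1_pt, pr1_pt, pr1_pt])

@[simp] theorem in1_apply (w : ρbar.V) : in1 ρbar ρ' e w = pt ρbar ρ' e 0 w := rfl

theorem in1_injective : Function.Injective (in1 ρbar ρ' e) := by
  intro v w h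
  have := congrArg (pr1 ρbar ρ' e) h
  rwa [in1_apply, in1_apply, pr1_pt, pr1_pt] at this

variable {c} in
theorem in1_act (he : ∀ (σ : GQ) (v : ρ'.V), e (ρ'.ρ σ v) = liftEnd ρbar c σ (e v))
    (σ : GQ) (w : ρbar.V) : in1 ρbar ρ' e (ρbar.ρ σ w) = ρ'.ρ σ (in1 ρbar ρ' e w) := by
  refine pt_ext ρbar ρ' e ?_ ?_
  · rw [pr0_act ρbar ρ' e he, in1_apply, in1_apply, pr0_pt, pr0_pt, map_zero]
  · rw [pr1_act ρbar ρ' e he, in1_apply, in1_apply, pr1_pt, pr1_pt, pr0_pt, map_zero, map_zero,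
      add_zero]

theorem pr0_surjective : Function.Surjective (pr0 ρbar ρ' e) := fun v =>
  ⟨pt ρbar ρ' e v 0, pr0_pt ρbar ρ' e v 0⟩

theorem in1_pr1_of_pr0_eq_zero {x : ρ'.V} (h : pr0 ρbar ρ' e x = 0) :
    in1 ρbar ρ' e (pr1 ρbar ρ' e x) = x :=
  pt_ext ρbar ρ' e (by rw [in1_apply, pr0_pt, h]) (by rw [in1_apply, pr1_pt])

end Coord



section Generic

variable {A X : Type} [CommRing A] [AddCommGroup X] [Module A X] (P : ValuationSubring Qb)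
  (ρ : GQ →* Module.End A X)

/-- The inertia augmentation is stable under the decomposition group. -/
theorem act_mem_aug {σ : GQ} (hσ : σ ∈ P.decompositionSubgroup ℚ) {x : X}
    (hx : x ∈ aug P (fun τ y => ρ τ y)) : ρ σ x ∈ aug P (fun τ y => ρ τ y) := by
  unfold aug at hx ⊢
  induction hx using AddSubgroup.closure_induction with
  | mem z hz =>
    obtain ⟨τ, hτ, y, rfl⟩ := hz
    refine AddSubgroup.subset_closure
      ⟨σ * τ * σ⁻¹, Fermat.Agent.S56.H794.conj_mem_inertiaIn P hσ hτ, ρ σ y, ?_⟩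
    show ρ σ (ρ τ y - y) = ρ (σ * τ * σ⁻¹) (ρ σ y) - ρ σ y
    have h1 : ρ (σ * τ * σ⁻¹) (ρ σ y) = ρ σ (ρ τ y) := by
      rw [← Module.End.mul_apply, ← map_mul, inv_mul_cancel_right, map_mul, Module.End.mul_apply]
    rw [h1, map_sub]
  | zero => rw [map_zero]; exact zero_mem _
  | add x y _ _ hx hy => rw [map_add]; exact add_mem hx hy
  | neg x _ hx => rw [map_neg]; exact neg_mem hx

/-- The inertia augmentation is stable under scalars. -/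
theorem smul_mem_aug' (r : A) {x : X} (hx : x ∈ aug P (fun τ y => ρ τ y)) :
    r • x ∈ aug P (fun τ y => ρ τ y) := by
  unfold aug at hx ⊢
  induction hx using AddSubgroup.closure_induction with
  | mem z hz =>
    obtain ⟨τ, hτ, y, rfl⟩ := hz
    refine AddSubgroup.subset_closure ⟨τ, hτ, r • y, ?_⟩
    show r • (ρ τ y - y) = ρ τ (r • y) - r • y
    rw [smul_sub, map_smul]
  | zero => rw [smul_zero]; exact zero_mem _
  | add x y _ _ hx hy => rw [smul_add]; exact add_mem hx hy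
  | neg x _ hx => rw [smul_neg]; exact neg_mem hx

end Generic

section Main

variable {k : Type} [Field k] [Finite k] {p : ℕ} [Fact p.Prime] [CharP k p]
  (ρbar : ResidualGaloisRep k) (P : ValuationSubring Qb)
  {c : GQ → Module.End k ρbar.V} (ρ' : GaloisRepAdic (DualNumber k))
  (e : ρ'.V ≃ₗ[DualNumber k] (DualNumber k ⊗[k] ρbar.V))

/-- **S2.**  Coordinates of the points of the inertia augmentation of a flat lift. -/
theorem aug_coord (he : ∀ (σ : GQ) (v : ρ'.V), e (ρ'.ρ σ v) = liftEnd ρbar c σ (e v))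
    (hp2 : p ≠ 2) (hP : P.LiesOverPrime p)
    {Λ : Subalgebra (Zp p) (ρ'.V → Qb)} (hΛ : IsHL p (fun σ x => ρ'.ρ σ x) Λ)
    {ℓ₀ : ρbar.V} (hℓ₀ : ∀ w ∈ aug P (fun σ v => ρbar.ρ σ v), ∃ t : k, w = t • ℓ₀)
    {n₀ : ρ'.V} (hn₀ : n₀ ∈ aug P (fun σ x => ρ'.ρ σ x)) (hn₀pr : pr0 ρbar ρ' e n₀ = ℓ₀)
    {n : ρ'.V} (hn : n ∈ aug P (fun σ x => ρ'.ρ σ x)) :
    ∃ α β : k, pr0 ρbar ρ' e n = α • ℓ₀ ∧
      pr1 ρbar ρ' e n = α • pr1 ρbar ρ' e n₀ + β • ℓ₀ := by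
  obtain ⟨α, hα⟩ := hℓ₀ _ (aug_map P (actV' := fun σ v => ρbar.ρ σ v) (pr0 ρbar ρ' e)
    (pr0_act ρbar ρ' e he) hn)
  set n' : ρ'.V := n - (TrivSqZeroExt.inl α : DualNumber k) • n₀ with hn'def
  have hn' : n' ∈ aug P (fun σ x => ρ'.ρ σ x) :=
    sub_mem hn (smul_mem_aug' P ρ'.ρ _ hn₀)
  have h0 : pr0 ρbar ρ' e n' = 0 := by
    rw [hn'def, map_sub, pr0_smul, TrivSqZeroExt.fst_inl, hn₀pr, hα, sub_self]
  have h1 := in1_pr1_of_pr0_eq_zero ρbar ρ' e h0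
  have h2 : pr1 ρbar ρ' e n' ∈ aug P (fun σ v => ρbar.ρ σ v) :=
    aug_ker P (actV := fun σ v => ρbar.ρ σ v) Fermat.Agent.S56.FO.H6.connEt hp2 hΛ hP
      (nsmul_p_eq_zero ρbar) (in1 ρbar ρ' e) (in1_injective ρbar ρ' e) (in1_act ρbar ρ' e he)
      (by rw [h1]; exact hn')
  obtain ⟨β, hβ⟩ := hℓ₀ _ h2
  refine ⟨α, β, hα, ?_⟩
  have h3 : pr1 ρbar ρ' e n' = pr1 ρbar ρ' e n - α • pr1 ρbar ρ' e n₀ := by
    rw [hn'def, map_sub, pr1_smul, TrivSqZeroExt.fst_inl, TrivSqZeroExt.snd_inl, zero_smul,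
      add_zero]
  rw [h3] at hβ
  exact sub_eq_iff_eq_add'.mp hβ

end Main

section Facts

variable {k : Type} [Field k] (ρbar : ResidualGaloisRep k)

theorem rho_inv_apply (σ : GQ) (v : ρbar.V) : ρbar.ρ σ (ρbar.ρ σ⁻¹ v) = v := by
  rw [← Module.End.mul_apply, ← map_mul, mul_inv_cancel, map_one, Module.End.one_apply]

theorem rho_inv_apply' (σ : GQ) (v : ρbar.V) : ρbar.ρ σ⁻¹ (ρbar.ρ σ v) = v := by
  rw [← Module.End.mul_apply, ← map_mul, inv_mul_cancel, map_one, Module.End.one_apply]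

theorem conj_apply (σ : GQ) (m : Module.End k ρbar.V) (v : ρbar.V) :
    (ρbar.ρ σ * m * ρbar.ρ σ⁻¹) (ρbar.ρ σ v) = ρbar.ρ σ (m v) := by
  rw [Module.End.mul_apply, Module.End.mul_apply, rho_inv_apply']

theorem isCycExp_one_of_fixed {p : ℕ} (hp : p.Prime) {ζ : Qb} (hζ : IsPrimitiveRoot ζ p)
    {σ : GQ} (hσ : σ ζ = ζ) : IsCycExp p σ 1 := by
  intro μ hμ
  haveI : NeZero p := ⟨hp.ne_zero⟩
  obtain ⟨j, -, rfl⟩ := hζ.eq_pow_of_pow_eq_one hμ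
  rw [map_pow, hσ, pow_one]

end Facts

section Top

open Fermat.Agent.S56.H486

/-- **STRUCT**: the frozen piece `H906.StructStatement`, unconditionally. -/
theorem struct : StructStatement := by
  intro k _ _ p _ hp2 hchar ρbar hdet P hP hU c hc ρ' hlift hflat
  haveI := hchar
  obtain ⟨U, hU0, hU1, hUD⟩ := hU
  obtain ⟨e, he⟩ := hlift
  have hp : p.Prime := Fact.out
  obtain ⟨ΛX, hΛX⟩ := exists_lattice_of_isFlatAt ρ' hflat
  have hΛV := Fermat.Agent.S19.H435.IsHopfLattice.pullback hΛX (in1 ρbar ρ' e)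
    (in1_injective ρbar ρ' e) (fun σ v => ρbar.ρ σ v) (in1_act ρbar ρ' e he)
  obtain ⟨ℓ₀, hℓ₀, hℓ₀mem, hℓ₀aug⟩ := exists_aug_line ρbar P flatInertia flatTame tameFrob hp2 hP
    hdet hΛV U hU0 hU1 hUD
  obtain ⟨n₀, hn₀, hn₀pr⟩ := aug_lift P (actV' := fun σ v => ρbar.ρ σ v) (pr0 ρbar ρ' e)
    (pr0_act ρbar ρ' e he) (pr0_surjective ρbar ρ' e) hℓ₀mem
  set ℓ₁ : ρbar.V := pr1 ρbar ρ' e n₀ with hℓ₁
  have hcoord : ∀ n ∈ aug P (fun σ x => ρ'.ρ σ x), ∃ α β : k,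
      pr0 ρbar ρ' e n = α • ℓ₀ ∧ pr1 ρbar ρ' e n = α • ℓ₁ + β • ℓ₀ := fun n hn =>
    aug_coord ρbar P ρ' e he hp2 hP hΛX hℓ₀aug hn₀ hn₀pr hn
  obtain ⟨B, hB⟩ := H656.exists_basis_zero_eq ρbar.finrank_eq hℓ₀
  set m : Module.End k ρbar.V := (B.coord 0).smulRight ℓ₁ with hm
  have hmℓ₀ : m ℓ₀ = ℓ₁ := by
    rw [hm, LinearMap.smulRight_apply, ← hB, H656.coord0_self, one_smul]
  set c' : GQ → Module.End k ρbar.V := fun σ => c σ + (ρbar.ρ σ * m * ρbar.ρ σ⁻¹ - m) with hc'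
  -- the line
  have hI : ∀ σ ∈ P.inertiaSubgroupIn ℚ, ∀ v : ρbar.V, ∃ s : k, ρbar.ρ σ v - v = s • ℓ₀ :=
    fun σ hσ v => hℓ₀aug _ (act_sub_mem_aug P _ hσ v)
  have hD : ∀ σ ∈ P.decompositionSubgroup ℚ, ∃ θ : k, ρbar.ρ σ ℓ₀ = θ • ℓ₀ :=
    fun σ hσ => hℓ₀aug _ (act_mem_aug P ρbar.ρ hσ hℓ₀mem)
  -- the key formula
  have hc'app : ∀ (σ : GQ) (v : ρbar.V),
      c' σ (ρbar.ρ σ v) = c σ (ρbar.ρ σ v) + ρbar.ρ σ (m v) - m (ρbar.ρ σ v) := by
    intro σ v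
    simp only [hc', LinearMap.add_apply, LinearMap.sub_apply]
    rw [conj_apply]
    abel
  -- (N2)
  have hN2' : ∀ σ ∈ P.inertiaSubgroupIn ℚ, ∀ v' : ρbar.V, ∃ t : k,
      c' σ (ρbar.ρ σ v') = t • ℓ₀ := by
    intro σ hσ v'
    obtain ⟨α, β, h0, h1⟩ := hcoord _
      (act_sub_mem_aug P (fun σ x => ρ'.ρ σ x) hσ (pt ρbar ρ' e v' 0))
    rw [map_sub, pr0_act ρbar ρ' e he, pr0_pt] at h0
    rw [map_sub, pr1_act ρbar ρ' e he, pr1_pt, pr0_pt, map_zero, zero_add, sub_zero] at h1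
    obtain ⟨s', hs'⟩ := hI σ hσ (m v')
    refine ⟨β + s', ?_⟩
    have h2 : ρbar.ρ σ v' = v' + α • ℓ₀ := by rw [← h0]; abel
    have h3 : m (ρbar.ρ σ v') = m v' + α • ℓ₁ := by
      rw [h2, map_add, map_smul, hmℓ₀]
    rw [hc'app, h1, h3, add_smul, ← hs']
    abel
  have hN2 : ∀ σ ∈ P.inertiaSubgroupIn ℚ, ∀ v : ρbar.V, ∃ t : k, c' σ v = t • ℓ₀ := by
    intro σ hσ v
    obtain ⟨t, ht⟩ := hN2' σ hσ (ρbar.ρ σ⁻¹ v)
    rw [rho_inv_apply] at ht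
    exact ⟨t, ht⟩
  -- trace zero
  have htr : ∀ σ : GQ, LinearMap.trace k ρbar.V (c' σ) = 0 := by
    intro σ
    simp only [hc']
    rw [map_add, hc.trace_eq_zero, zero_add]
    exact H656.trace_conj_sub _ _ _ (H656.rho_inv_mul' ρbar σ)
  have hF3 : ∀ σ ∈ P.inertiaSubgroupIn ℚ, c' σ ℓ₀ = 0 := by
    intro σ hσ
    obtain ⟨t₀, ht₀⟩ := hN2 σ hσ (B 0)
    obtain ⟨t₁, ht₁⟩ := hN2 σ hσ (B 1)
    have h := htr σ
    rw [LinearMap.trace_eq_matrix_trace k B, Matrix.trace_fin_two] at h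
    simp only [LinearMap.toMatrix_apply] at h
    rw [ht₀, ht₁, ← hB] at h
    have e0 : B.repr (t₀ • B 0) 0 = t₀ := by
      have := H656.coord0_self B
      rw [Module.Basis.coord_apply] at this
      rw [map_smul, Finsupp.smul_apply, this, smul_eq_mul, mul_one]
    have e1 : B.repr (t₁ • B 0) 1 = 0 := by
      have := H656.coord1_self0 B
      rw [Module.Basis.coord_apply] at this
      rw [map_smul, Finsupp.smul_apply, this, smul_eq_mul, mul_zero]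
    rw [e0, e1, add_zero] at h
    rw [← hB, ht₀, h, zero_smul]
  -- (N1), full form
  have hN1 : ∀ σ ∈ P.decompositionSubgroup ℚ, ∃ α β : k, α ≠ 0 ∧ ρbar.ρ σ ℓ₀ = α • ℓ₀ ∧
      ρbar.ρ σ ℓ₁ + c σ (ρbar.ρ σ ℓ₀) = α • ℓ₁ + β • ℓ₀ ∧ c' σ (ρbar.ρ σ ℓ₀) = β • ℓ₀ := by
    intro σ hσ
    obtain ⟨α, β, h0, h1⟩ := hcoord _ (act_mem_aug P ρ'.ρ hσ hn₀)
    rw [pr0_act ρbar ρ' e he, hn₀pr] at h0
    rw [pr1_act ρbar ρ' e he, hn₀pr] at h1
    refine ⟨α, β, ?_, h0, h1, ?_⟩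
    · intro hα
      rw [hα, zero_smul] at h0
      have := congrArg (ρbar.ρ σ⁻¹) h0
      rw [rho_inv_apply', map_zero] at this
      exact hℓ₀ this
    · have h2 : c σ (ρbar.ρ σ ℓ₀) = α • ℓ₁ + β • ℓ₀ - ρbar.ρ σ ℓ₁ := by
        rw [← h1]; abel
      have h3 : m (ρbar.ρ σ ℓ₀) = α • ℓ₁ := by rw [h0, map_smul, hmℓ₀]
      rw [hc'app, h2, h3, hmℓ₀]
      abel
  -- elements of inertia fixing `ζ` fix the augmentation of `X`
  have hfixℓ₀ : ∀ ζ : Qb, IsPrimitiveRoot ζ p → ∀ σ ∈ P.inertiaSubgroupIn ℚ, σ ζ = ζ →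
      ρbar.ρ σ ℓ₀ = ℓ₀ := by
    intro ζ hζ σ hσ hσζ
    have hσD := H656.mem_decomposition_of_mem_inertia hσ
    obtain ⟨θ, hθ⟩ := hD σ hσD
    obtain ⟨s, hs⟩ := hI σ hσ (B 1)
    have h1 : ρbar.ρ σ (B 1) = B 1 + s • B 0 := by rw [hB, ← hs]; abel
    have hθ' : ρbar.ρ σ (B 0) = θ • B 0 := by rw [hB]; exact hθ
    have hdet1 := hdet σ 1 (isCycExp_one_of_fixed hp hζ hσζ)
    rw [Nat.cast_one, det_of_triangular B _ (by rw [hθ', map_smul, H656.coord1_self0 B,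
      smul_zero]), hθ', h1, map_smul, map_add, map_smul, H656.coord0_self B,
      H656.coord1_self B, H656.coord1_self0 B, smul_eq_mul, smul_eq_mul, mul_one, mul_zero,
      add_zero, mul_one] at hdet1
    rw [hθ, hdet1, one_smul]
  have hfix : ∀ ζ : Qb, IsPrimitiveRoot ζ p → ∀ σ ∈ P.inertiaSubgroupIn ℚ, σ ζ = ζ →
      ∀ t ∈ aug P (fun σ x => ρ'.ρ σ x), ρ'.ρ σ t = t := by
    intro ζ hζ σ hσ hσζ t ht
    have hσD := H656.mem_decomposition_of_mem_inertia hσ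
    have hσℓ₀ := hfixℓ₀ ζ hζ σ hσ hσζ
    obtain ⟨α', β', hα', h0', h1', h2'⟩ := hN1 σ hσD
    rw [hσℓ₀] at h0' h1' h2'
    have hα1 : α' = 1 := by
      have : (1 : k) • B 0 = α' • B 0 := by rw [one_smul, hB]; exact h0'
      exact (H656.smul_basis0_inj B this).symm
    have hβ0 : β' = 0 := by
      rw [hF3 σ hσ] at h2'
      have : (0 : k) • B 0 = β' • B 0 := by rw [zero_smul, hB]; exact h2'
      exact (H656.smul_basis0_inj B this).symm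
    rw [hα1, hβ0, one_smul, zero_smul, add_zero] at h1'
    obtain ⟨α, β, h0, h1⟩ := hcoord t ht
    have h5 : α • ρbar.ρ σ ℓ₁ + α • c σ ℓ₀ = α • ℓ₁ := by rw [← smul_add, h1']
    refine pt_ext ρbar ρ' e ?_ ?_
    · rw [pr0_act ρbar ρ' e he, h0, map_smul, hσℓ₀]
    · rw [pr1_act ρbar ρ' e he, h0, h1, map_smul, hσℓ₀, map_add, map_smul, map_smul, hσℓ₀,
        map_smul, ← h5]
      abel
  -- (FU) on `X`
  haveI : Finite ρ'.V := Module.finite_of_finite (DualNumber k)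
  have hpX : ∀ x : ρ'.V, p • x = 0 := by
    intro x
    have h0 : (p : DualNumber k) = 0 := by
      rw [← map_natCast (algebraMap k (DualNumber k)) p, CharP.cast_eq_zero k p, map_zero]
    rw [← Nat.cast_smul_eq_nsmul (DualNumber k) p x, h0, zero_smul]
  have hFU : ∀ ζ : Qb, IsPrimitiveRoot ζ p → ∀ (ξ : ρ'.V →+ ZMod p) (x : ρ'.V),
      ∃ Bu : Qb, P.valuation Bu = 1 ∧ ∀ σ ∈ P.inertiaSubgroupIn ℚ, σ ζ = ζ →
        σ Bu = ζ ^ (ξ (ρ'.ρ σ x - x)).val * Bu := fun ζ hζ ξ x =>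
    H656.flatUnit p ρ'.V (fun σ x => ρ'.ρ σ x) ΛX hΛX hpX P hP ζ hζ
      (aug P (fun σ x => ρ'.ρ σ x)) (hfix ζ hζ)
      (fun σ hσ _ y => act_sub_mem_aug P _ hσ y) ξ x
  refine ⟨ℓ₀, m, ⟨hℓ₀, hD, hI⟩, ?_, ?_, hN2, ?_⟩
  · -- `ρ̄` is peu ramifié
    intro v ζ hζ ξ
    obtain ⟨Bu, hBu, hB'⟩ := hFU ζ hζ (ξ.comp (pr0 ρbar ρ' e)) (pt ρbar ρ' e v 0)
    refine ⟨Bu, hBu, fun σ hσ hσζ => ?_⟩
    rw [hB' σ hσ hσζ, AddMonoidHom.comp_apply, map_sub, pr0_act ρbar ρ' e he, pr0_pt]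
  · -- (N1)
    intro σ hσ
    obtain ⟨α, β, hα, h0, -, h2⟩ := hN1 σ hσ
    refine ⟨α⁻¹ * β, ?_⟩
    rw [h0, map_smul] at h2
    calc c' σ ℓ₀ = α⁻¹ • (α • c' σ ℓ₀) := by rw [smul_smul, inv_mul_cancel₀ hα, one_smul]
      _ = (α⁻¹ * β) • ℓ₀ := by rw [h2, smul_smul]
  · -- (N3)
    intro v ζ hζ ξ
    obtain ⟨Bu, hBu, hB'⟩ := hFU ζ hζ
      (ξ.comp (pr1 ρbar ρ' e - m.toAddMonoidHom.comp (pr0 ρbar ρ' e))) (pt ρbar ρ' e v (m v))
    refine ⟨Bu, hBu, fun σ hσ hσζ => ?_⟩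
    rw [hB' σ hσ hσζ]
    congr 3
    rw [AddMonoidHom.comp_apply, AddMonoidHom.sub_apply, AddMonoidHom.comp_apply]
    congr 1
    obtain ⟨s, hs⟩ := hI σ hσ v
    have h2 : ρbar.ρ σ v = v + s • ℓ₀ := by rw [← hs]; abel
    have h3 : c' σ v = c' σ (ρbar.ρ σ v) := by
      rw [h2, map_add, map_smul, hF3 σ hσ, smul_zero, add_zero]
    show pr1 ρbar ρ' e (ρ'.ρ σ (pt ρbar ρ' e v (m v)) - pt ρbar ρ' e v (m v)) -
      m (pr0 ρbar ρ' e (ρ'.ρ σ (pt ρbar ρ' e v (m v)) - pt ρbar ρ' e v (m v))) = c' σ v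
    rw [h3, hc'app, map_sub, map_sub, pr0_act ρbar ρ' e he, pr1_act ρbar ρ' e he, pr0_pt, pr1_pt,
      map_sub]
    abel

end Top

end Fermat.Agent.S56.H246
end
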